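/-
S56 / Defs : COMMON OBJECTS of the Taylor-Wiles project (coordinator: helper74).  FROZEN.

* `M2 A`            : 2 x 2 matrices
* `Ad0 p k`, `ad0 p M` : `W = ad⁰ ρbar` = trace zero matrices over `k`, as `𝔽_p[G_ℚ]`-module
                       (`σ • X = M σ * X * M σ⁻¹`), `M : GQ →* M2 k` the residual representation
* `ResHyp p M`      : the hypotheses of the frozen statement in matrix form
* `UnramOutside M T`
* `IsClassOf M ρ' z`: in a suitable basis `ρ' = (1 + ε z) M` over the dual numbers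
* `Lcond p M P q`   : span of the local classes at `q` of all lifts to `k[ε]` satisfying `P`
* `Lur q ρ`         : unramified classes in `H¹(D_q, X)`
-/
import Fermat.Agent.S55.Z.ArithDatum
import Fermat.Agent.S53.Dictionary

set_option autoImplicit false

noncomputable section

namespace Fermat.Agent.S56

open Fermat.Agent.S55 Fermat.Agent.S55.Places ExtCitation Module Polynomial

/-- 2 x 2 matrices -/
abbrev M2 (A : Type) : Type := Matrix (Fin 2) (Fin 2) A

/-- inertia group at a prime (as a `Nat.Primes`), companion of `S55.DqP` -/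
def IqP (q : Nat.Primes) : Subgroup GQ :=
  haveI : Fact (q : ℕ).Prime := ⟨q.2⟩
  Iq (q : ℕ)

section ad

variable (p : ℕ) [Fact p.Prime] (k : Type) [Field k] [Algebra (ZMod p) k]

/-- `W = ad⁰`: trace zero matrices over `k`, as an `𝔽_p`-vector space. -/
abbrev Ad0 : Type := ↥(LinearMap.ker (Matrix.traceLinearMap (Fin 2) (ZMod p) k))

variable {k}

/-- `X ↦ A X B`, `𝔽_p`-linear -/
def conjLin (A B : M2 k) : M2 k →ₗ[ZMod p] M2 k where
  toFun X := A * X * B
  map_add' X Y := by rw [mul_add, add_mul]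
  map_smul' c X := by rw [Matrix.mul_smul, Matrix.smul_mul, RingHom.id_apply]

@[simp] lemma conjLin_apply (A B X : M2 k) : conjLin p A B X = A * X * B := rfl

lemma mem_Ad0 (X : M2 k) :
    X ∈ LinearMap.ker (Matrix.traceLinearMap (Fin 2) (ZMod p) k) ↔ X.trace = 0 := by
  rw [LinearMap.mem_ker, Matrix.traceLinearMap_apply]

lemma map_mul_inv (M : GQ →* M2 k) (σ : GQ) : M σ * M σ⁻¹ = 1 := by
  rw [← map_mul, mul_inv_cancel, map_one]

lemma map_inv_mul (M : GQ →* M2 k) (σ : GQ) : M σ⁻¹ * M σ = 1 := by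
  rw [← map_mul, inv_mul_cancel, map_one]

/-- **`ad⁰ ρbar`** : `σ • X = M σ * X * M σ⁻¹`. -/
def ad0 (M : GQ →* M2 k) : Representation (ZMod p) GQ (Ad0 p k) where
  toFun σ := (conjLin p (M σ) (M σ⁻¹)).restrict (fun X hX => by
    rw [mem_Ad0] at hX ⊢
    rw [conjLin_apply, Matrix.trace_mul_comm, ← mul_assoc, map_inv_mul, one_mul, hX])
  map_one' := by
    ext X : 2
    simp [LinearMap.restrict_apply]
  map_mul' σ τ := by
    ext X : 2
    simp [LinearMap.restrict_apply, mul_assoc]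

@[simp] lemma ad0_apply_coe (M : GQ →* M2 k) (σ : GQ) (X : Ad0 p k) :
    ((ad0 p M σ X : Ad0 p k) : M2 k) = M σ * (X : M2 k) * M σ⁻¹ := rfl

/-- The hypotheses of the frozen statement on `ρbar`, in matrix form. -/
structure ResHyp (M : GQ →* M2 k) : Prop where
  fin : GaloisFactorsThroughFiniteLevel M
  det : ∀ σ, (M σ).det = algebraMap (ZMod p) k ((cycloChar p σ : (ZMod p)ˣ) : ZMod p)
  split : ∀ σ, ∃ α β : k, (M σ).charpoly = (X - C α) * (X - C β)
  irr2 : ∀ G : Subgroup GQ, (G.index = 1 ∨ G.index = 2) → ∀ v : Fin 2 → k, v ≠ 0 →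
    ∃ σ ∈ G, ∀ a : k, (M σ).mulVec v ≠ a • v

end ad

section cond

variable {k : Type} [Field k]

/-- `M` is unramified at all primes outside `T`. -/
def UnramOutside (M : GQ →* M2 k) (T : Finset Nat.Primes) : Prop :=
  ∀ q : Nat.Primes, q ∉ T → ∀ A : ValuationSubring Qbar, A.LiesOverPrime (q : ℕ) →
    ∀ σ ∈ A.inertiaSubgroupIn ℚ, M σ = 1

/-- In a suitable basis the representation `ρ'` over the dual numbers is `(1 + ε z) M`. -/
def IsClassOf (M : GQ →* M2 k) (ρ' : GaloisRepAdic (DualNumber k)) (z : GQ → M2 k) : Prop :=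
  ∃ b : Basis (Fin 2) (DualNumber k) ρ'.V, ∀ (σ : GQ) (i j : Fin 2),
    S53.adicMat ρ' b σ i j = TrivSqZeroExt.inl (M σ i j) + TrivSqZeroExt.inr ((z σ * M σ) i j)

variable (p : ℕ) [Fact p.Prime] [Algebra (ZMod p) k]

/-- The span of the local classes at `q` of all lifts of `M` to `k[ε]` with property `P`. -/
def Lcond (M : GQ →* M2 k) (P : GaloisRepAdic (DualNumber k) → Prop) (q : Nat.Primes) :
    Submodule (ZMod p) (H1 (Lall.sub (DqP q)) (rsub (ad0 p M) (DqP q))) :=
  Submodule.span (ZMod p) {x | ∃ (ρ' : GaloisRepAdic (DualNumber k)) (z : ↥(Z1 Lall (ad0 p M))),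
    P ρ' ∧ IsClassOf M ρ' (fun σ => (((z : GQ → Ad0 p k) σ : Ad0 p k) : M2 k)) ∧
      x = (Pair.res Lall (ad0 p M) (DqP q)).map1 (H1.mk Lall (ad0 p M) z)}

end cond

section ur

variable {p : ℕ} [Fact p.Prime] {X : Type} [AddCommGroup X] [Module (ZMod p) X]

/-- cocycles on `D_q` vanishing on `I_q` -/
def Zur (q : Nat.Primes) (ρ : Representation (ZMod p) GQ X) :
    Submodule (ZMod p) ↥(Z1 (Lall.sub (DqP q)) (rsub ρ (DqP q))) where
  carrier := {z | ∀ σ : DqP q, (σ : GQ) ∈ IqP q → (z : DqP q → X) σ = 0}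
  add_mem' := by
    intro a b ha hb σ hσ
    simp [ha σ hσ, hb σ hσ]
  zero_mem' := fun _ _ => rfl
  smul_mem' := by
    intro c a ha σ hσ
    simp [ha σ hσ]

/-- **unramified classes** `= ker (H¹(D_q,X) → H¹(I_q,X))`. -/
def Lur (q : Nat.Primes) (ρ : Representation (ZMod p) GQ X) :
    Submodule (ZMod p) (H1 (Lall.sub (DqP q)) (rsub ρ (DqP q))) :=
  (Zur q ρ).map (H1.mk (Lall.sub (DqP q)) (rsub ρ (DqP q)))

end ur

end Fermat.Agent.S56

end
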